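/-
GATE-F (S40), node GF-PEU part 1 (helper57): the TAME RING `O' = A ∩ ℚ̄^{I'}`, `I' = I_A ∩ Stab(ζ_p)`,
as a subring of `ℚ̄`, with the one fact (ORD) needs: an element of `O'` in the maximal ideal of `A` is
divisible by `1 − ζ` INSIDE `O'` (`e(K₀(ζ_p)/ℚ_p) = p − 1`, from `GL/Local/TameZeta`).
-/
import Mathlib
import Fermat.Agent.GL.Local.TameZeta

set_option autoImplicit false
set_option linter.unusedSectionVars false

open scoped Pointwise NumberField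
open Polynomial IntermediateField
open Fermat.Agent.Common_helper32 Fermat.Agent.S13.Global
open Fermat.Agent.GL.Local.InertiaField

namespace Fermat.Agent.GF.Peu

variable (A : ValuationSubring Qb) (ζ : Qb)

/-- the tame inertia condition `ρ ∈ I_A`, `ρ ζ = ζ`. -/
def IsTameFix (ρ : GQ) : Prop := ρ ∈ A.inertiaSubgroupIn ℚ ∧ ρ ζ = ζ

/-- the tame ring `O' = A ∩ ℚ̄^{I'}` as a subring of `ℚ̄`. -/
def tameSub : Subring Qb where
  carrier := {x | x ∈ A ∧ ∀ ρ : GQ, IsTameFix A ζ ρ → ρ x = x}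
  mul_mem' := by
    rintro x y ⟨hx, hx'⟩ ⟨hy, hy'⟩
    exact ⟨A.mul_mem _ _ hx hy, fun ρ hρ => by rw [map_mul, hx' ρ hρ, hy' ρ hρ]⟩
  one_mem' := ⟨A.one_mem, fun ρ _ => map_one ρ⟩
  add_mem' := by
    rintro x y ⟨hx, hx'⟩ ⟨hy, hy'⟩
    exact ⟨A.add_mem _ _ hx hy, fun ρ hρ => by rw [map_add, hx' ρ hρ, hy' ρ hρ]⟩
  zero_mem' := ⟨A.zero_mem, fun ρ _ => map_zero ρ⟩
  neg_mem' := by
    rintro x ⟨hx, hx'⟩
    exact ⟨A.neg_mem _ hx, fun ρ hρ => by rw [map_neg, hx' ρ hρ]⟩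

variable {A ζ}

theorem mem_tameSub {x : Qb} :
    x ∈ tameSub A ζ ↔ x ∈ A ∧ ∀ ρ : GQ, IsTameFix A ζ ρ → ρ x = x := Iff.rfl

/-- Galois correspondence: the fixed field of `I' = I_A ∩ Stab ζ` is `K₀(ζ)`. -/
theorem mem_adjoin_zeta_of_fixed {x : Qb} (hx : ∀ ρ : GQ, IsTameFix A ζ ρ → ρ x = x) :
    x ∈ (inertiaField A)⟮ζ⟯ := by
  set E : IntermediateField ℚ Qb := ((inertiaField A)⟮ζ⟯).restrictScalars ℚ with hE
  have hfix : IntermediateField.fixedField E.fixingSubgroup = E :=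
    InfiniteGalois.fixedField_fixingSubgroup E
  have hxE : x ∈ IntermediateField.fixedField E.fixingSubgroup := by
    intro σ
    apply hx σ.1
    have hσ := σ.2
    rw [IntermediateField.mem_fixingSubgroup_iff] at hσ
    constructor
    · rw [← fixingSubgroup_inertiaField, IntermediateField.mem_fixingSubgroup_iff]
      intro y hy
      apply hσ
      rw [hE, IntermediateField.mem_restrictScalars]
      exact ((inertiaField A)⟮ζ⟯).algebraMap_mem ⟨y, hy⟩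
    · apply hσ
      rw [hE, IntermediateField.mem_restrictScalars]
      exact IntermediateField.mem_adjoin_simple_self _ ζ
  rw [hfix, hE, IntermediateField.mem_restrictScalars] at hxE
  exact hxE

variable {p : ℕ} (hp : p.Prime) (hA : (p : Qb) ∈ A.nonunits) (hζ : IsPrimitiveRoot ζ p)
include hp hA hζ

theorem zeta_mem_tameSub : ζ ∈ tameSub A ζ :=
  ⟨(zeta_mem A hp hζ).1, fun _ hρ => hρ.2⟩

/-- **divisibility by `1 − ζ` inside the tame ring.** -/
theorem exists_eq_one_sub_zeta_mul {x : Qb} (hx : x ∈ tameSub A ζ) (hxm : x ∈ A.nonunits) :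
    ∃ c ∈ tameSub A ζ, x = (1 - ζ) * c := by
  have h0 := one_sub_zeta_ne_zero hp hζ
  by_cases hx0 : x = 0
  · exact ⟨0, (tameSub A ζ).zero_mem, by rw [hx0, mul_zero]⟩
  obtain ⟨n, hn⟩ := exists_valuation_eq_zpow_of_mem_adjoin_zeta A hp hA hζ
    (mem_adjoin_zeta_of_fixed hx.2) hx0
  have hv1 : A.valuation (1 - ζ) < 1 :=
    (A.mem_nonunits_iff).mp (one_sub_zeta_mem_nonunits A hp hA hζ)
  have hvpos : 0 < A.valuation (1 - ζ) := (A.valuation.pos_iff).mpr h0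
  have hvx : A.valuation x < 1 := (A.mem_nonunits_iff).mp hxm
  -- `n ≥ 1`
  have hn1 : 1 ≤ n := by
    by_contra hcon
    have hn0 : n ≤ 0 := by omega
    have : (1 : A.ValueGroup) ≤ A.valuation (1 - ζ) ^ n := by
      obtain ⟨m, hm⟩ : ∃ m : ℕ, n = -(m : ℤ) := ⟨n.natAbs, by omega⟩
      rw [hm, zpow_neg, zpow_natCast]
      exact (one_le_inv₀ (pow_pos hvpos m)).mpr (pow_le_one₀ hvpos.le hv1.le)
    rw [← hn] at this
    exact absurd hvx (not_lt.mpr this)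
  refine ⟨x / (1 - ζ), ⟨?_, ?_⟩, by field_simp⟩
  · rw [← A.valuation_le_one_iff, map_div₀, hn]
    rw [div_le_one₀ hvpos]
    obtain ⟨m, hm⟩ : ∃ m : ℕ, n = (m : ℤ) + 1 := ⟨(n - 1).toNat, by omega⟩
    rw [hm, zpow_add_one₀ hvpos.ne', zpow_natCast]
    calc A.valuation (1 - ζ) ^ m * A.valuation (1 - ζ) ≤ 1 * A.valuation (1 - ζ) :=
          mul_le_mul_left (pow_le_one₀ hvpos.le hv1.le) _
      _ = A.valuation (1 - ζ) := one_mul _
  · intro ρ hρ
    rw [map_div₀, hx.2 ρ hρ, map_sub, map_one, hρ.2]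

end Fermat.Agent.GF.Peu
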