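/-
GATE-F (S40), node GF-EPEU part 1 (helper57): KUMMER BOOKKEEPING over the tame field
`K' = ℚ̄^{I'}`, `I' = I_A ∩ Stab ζ_p`, elementwise (no subgroup / quotient structures).
`α ≠ 0` a Kummer element (`ρ α ∈ μ_p · α` for `ρ ∈ I'`), `γ ≠ 0` with `γ^p ∈ K'` and
`γ ∈ K'(α)` (Galois form: every `ρ ∈ I'` fixing `α` fixes `γ`)
⟹ `∃ m, γ / α^m ∈ K'`  (`K'^× ∩ K'(α)^{×p} = (α^p)^ℤ · K'^{×p}`).
-/
import Mathlib
import Fermat.Agent.GF.Peu.Tame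

set_option autoImplicit false
set_option linter.unusedSectionVars false

open scoped Pointwise NumberField
open Fermat.Agent.Common_helper32 Fermat.Agent.S13.Global

namespace Fermat.Agent.GF.Peu

variable {A : ValuationSubring Qb} {ζ : Qb}

theorem IsTameFix.one : IsTameFix A ζ 1 := ⟨(A.inertiaSubgroupIn ℚ).one_mem, rfl⟩

theorem IsTameFix.mul {ρ ρ' : GQ} (h : IsTameFix A ζ ρ) (h' : IsTameFix A ζ ρ') :
    IsTameFix A ζ (ρ * ρ') :=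
  ⟨(A.inertiaSubgroupIn ℚ).mul_mem h.1 h'.1, by
    rw [AlgEquiv.mul_apply, h'.2, h.2]⟩

theorem IsTameFix.pow {ρ : GQ} (h : IsTameFix A ζ ρ) (n : ℕ) : IsTameFix A ζ (ρ ^ n) := by
  induction n with
  | zero => rw [pow_zero]; exact IsTameFix.one
  | succ n ih => rw [pow_succ]; exact ih.mul h

theorem IsTameFix.apply_zeta_pow {ρ : GQ} (h : IsTameFix A ζ ρ) (n : ℕ) : ρ (ζ ^ n) = ζ ^ n := by
  rw [map_pow, h.2]

/-- the Kummer action multiplies along products. -/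
theorem kummer_mul {ρ ρ' : GQ} (h : IsTameFix A ζ ρ) {a : Qb} {k k' : ℕ}
    (hk : ρ a = ζ ^ k * a) (hk' : ρ' a = ζ ^ k' * a) : (ρ * ρ') a = ζ ^ (k' + k) * a := by
  rw [AlgEquiv.mul_apply, hk', map_mul, h.apply_zeta_pow, hk, pow_add, mul_assoc]

/-- the Kummer action on powers. -/
theorem kummer_pow {ρ : GQ} (h : IsTameFix A ζ ρ) {a : Qb} {k : ℕ}
    (hk : ρ a = ζ ^ k * a) (n : ℕ) : (ρ ^ n) a = ζ ^ (k * n) * a := by
  induction n with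
  | zero => rw [pow_zero, mul_zero, pow_zero, one_mul]; rfl
  | succ n ih =>
    rw [pow_succ, kummer_mul (h.pow n) ih hk]
    congr 2
    ring

variable {p : ℕ} [hpF : Fact p.Prime]

/-- `γ^p ∈ K'` ⟹ `γ` is a Kummer element. -/
theorem kummer_of_pow_fixed (hζ : IsPrimitiveRoot ζ p) {γ : Qb} (hγ0 : γ ≠ 0) {ρ : GQ}
    (hγp : ρ (γ ^ p) = γ ^ p) : ∃ j : ℕ, ρ γ = ζ ^ j * γ := by
  have h1 : (ρ γ / γ) ^ p = 1 := by
    rw [div_pow, ← map_pow, hγp, div_self (pow_ne_zero p hγ0)]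
  obtain ⟨j, -, hj⟩ := hζ.eq_pow_of_pow_eq_one h1
  exact ⟨j, by rw [hj, div_mul_cancel₀ _ hγ0]⟩

/-- **Kummer bookkeeping.** -/
theorem exists_div_pow_fixed (hζ : IsPrimitiveRoot ζ p) {α γ : Qb} (hα0 : α ≠ 0) (hγ0 : γ ≠ 0)
    (hαK : ∀ ρ : GQ, IsTameFix A ζ ρ → ∃ k : ℕ, ρ α = ζ ^ k * α)
    (hγp : ∀ ρ : GQ, IsTameFix A ζ ρ → ρ (γ ^ p) = γ ^ p)
    (hγL : ∀ ρ : GQ, IsTameFix A ζ ρ → ρ α = α → ρ γ = γ) :
    ∃ m : ℕ, ∀ ρ : GQ, IsTameFix A ζ ρ → ρ (γ / α ^ m) = γ / α ^ m := by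
  have hp := hpF.out
  have hζp : ζ ^ p = 1 := hζ.pow_eq_one
  by_cases hall : ∀ ρ : GQ, IsTameFix A ζ ρ → ρ α = α
  · refine ⟨0, fun ρ hρ => ?_⟩
    rw [pow_zero, div_one]
    exact hγL ρ hρ (hall ρ hρ)
  push Not at hall
  obtain ⟨ρ0, hρ0, hne⟩ := hall
  obtain ⟨a, ha⟩ := hαK ρ0 hρ0
  -- `p ∤ a`
  have hpa : ¬ p ∣ a := by
    intro hdvd
    apply hne
    obtain ⟨c, rfl⟩ := hdvd
    rw [ha, pow_mul, hζp, one_pow, one_mul]
  have hcop : Nat.Coprime a p := (Nat.Prime.coprime_iff_not_dvd hp).mpr hpa |>.symm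
  obtain ⟨b, -, hb⟩ := Nat.exists_mul_mod_eq_one_of_coprime hcop hp.one_lt
  -- `ρ1 α = ζ α`
  have hρ1 : IsTameFix A ζ (ρ0 ^ b) := hρ0.pow b
  have hρ1α : (ρ0 ^ b) α = ζ ^ 1 * α := by
    rw [kummer_pow hρ0 ha b, pow_eq_pow_mod (a * b) hζp, hb]
  obtain ⟨m, hm⟩ := kummer_of_pow_fixed hζ hγ0 (hγp _ hρ1)
  refine ⟨m, fun ρ hρ => ?_⟩
  obtain ⟨k, hk⟩ := hαK ρ hρ
  obtain ⟨j, hj⟩ := kummer_of_pow_fixed hζ hγ0 (hγp ρ hρ)
  set N : ℕ := (p - 1) * k with hN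
  have hρ' : IsTameFix A ζ (ρ * (ρ0 ^ b) ^ N) := hρ.mul (hρ1.pow N)
  have hNk : N + k = p * k := by
    rw [hN]
    have : p - 1 + 1 = p := Nat.sub_add_cancel hp.one_lt.le
    calc (p - 1) * k + k = (p - 1 + 1) * k := by ring
      _ = p * k := by rw [this]
  -- `ρ'` fixes `α`
  have h1 : (ρ * (ρ0 ^ b) ^ N) α = α := by
    rw [kummer_mul hρ hk (kummer_pow hρ1 hρ1α N), one_mul, hNk, pow_mul, hζp, one_pow, one_mul]
  -- hence `γ`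
  have h2 := hγL _ hρ' h1
  rw [kummer_mul hρ hj (kummer_pow hρ1 hm N)] at h2
  have h3 : ζ ^ (m * N + j) = 1 := by
    have : ζ ^ (m * N + j) * γ = 1 * γ := by rw [h2, one_mul]
    exact mul_right_cancel₀ hγ0 this
  -- `ζ^j = ζ^(k m)`
  have h4 : ζ ^ j = ζ ^ (k * m) := by
    have hu : ζ ^ (m * N) ≠ 0 := pow_ne_zero _ (hζ.ne_zero hp.ne_zero)
    apply mul_left_cancel₀ hu
    rw [← pow_add, h3, ← pow_add]
    have : m * N + k * m = p * (k * m) := by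
      calc m * N + k * m = m * (N + k) := by ring
        _ = m * (p * k) := by rw [hNk]
        _ = p * (k * m) := by ring
    rw [this, pow_mul, hζp, one_pow]
  rw [map_div₀, map_pow, hj, hk, mul_pow, ← pow_mul, h4]
  have hz : ζ ^ (k * m) ≠ 0 := pow_ne_zero _ (hζ.ne_zero hp.ne_zero)
  have hαm : α ^ m ≠ 0 := pow_ne_zero _ hα0
  field_simp

end Fermat.Agent.GF.Peu
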