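/-
GATE-F (S40), node GF-PEU part 4 (helper57): the `ℤ/p`-GRADING of a `Δ`-decomposable function
algebra `T ⊆ Map(M, K)` along a line `ι : ℤ/p → M` on which `T` restricts into the group algebra
of characters (`hcoef`, = (ORD1) of GF/Ord), and the UNIT SUM: if the character `χ` itself is the
restriction of some `g ∈ T` (= (ORD2)), then for every `x` there are degree-one homogeneous
`F i ∈ T` and `G i ∈ T` with `∑ F i x * G i (-x) = 1`.  Mathlib + GF/Ord only.
-/
import Mathlib
import Fermat.Agent.GF.Peu.Adjoin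
import Fermat.Agent.GF.Ord.Chi

set_option autoImplicit false

namespace Fermat.Agent.GF.Peu

open Finset Fermat.Agent.GF.Ord

variable {S K M : Type*} [CommRing S] [Field K] [Algebra S K] [AddCommGroup M]
variable {p : ℕ} [hp : Fact p.Prime]
variable (T : Subalgebra S (M → K)) (ι : ZMod p →+ M) (ψ : AddChar (ZMod p) K)

/-- **graded decomposition** of `T` along the line `ι`. -/
theorem exists_graded (hψ : ψ.IsPrimitive) (hp0 : (p : K) ≠ 0)
    (hdec : ∀ f ∈ T, Dec T f)
    (hcoef : ∀ f ∈ T, ∃ c : ZMod p → S, ∀ k, f (ι k) = ∑ j, algebraMap S K (c j) * ψ (j * k))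
    {f : M → K} (hf : f ∈ T) :
    ∃ F : ZMod p → (M → K), (∀ j, F j ∈ T) ∧ (∀ y k, f (y + ι k) = ∑ j, F j y * ψ (j * k)) ∧
      ∀ j y k, F j (y + ι k) = ψ (j * k) * F j y := by
  obtain ⟨I, _, a, b, ha, hb, hab⟩ := hdec f hf
  choose c hc using fun i => hcoef (b i) (hb i)
  let F : ZMod p → (M → K) := fun j => ∑ i, c i j • a i
  have hF : ∀ j, F j ∈ T := fun j => T.sum_mem (fun i _ => T.smul_mem (ha i) _)
  have hFy : ∀ j y, F j y = ∑ i, algebraMap S K (c i j) * a i y := by
    intro j y
    simp only [F, Finset.sum_apply, Pi.smul_apply]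
    refine Finset.sum_congr rfl (fun i _ => ?_)
    rw [Algebra.smul_def]
  have hexp : ∀ y k, f (y + ι k) = ∑ j, F j y * ψ (j * k) := by
    intro y k
    rw [hab]
    simp only [hFy, hc, Finset.mul_sum, Finset.sum_mul]
    rw [Finset.sum_comm]
    refine Finset.sum_congr rfl (fun j _ => Finset.sum_congr rfl (fun i _ => ?_))
    ring
  refine ⟨F, hF, hexp, ?_⟩
  intro j y k
  have key : ∀ k', ∑ j, (F j (y + ι k) - ψ (j * k) * F j y) * ψ (j * k') = 0 := by
    intro k'
    simp only [sub_mul, Finset.sum_sub_distrib]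
    rw [← hexp (y + ι k) k', add_assoc, ← map_add, hexp y (k + k'), sub_eq_zero]
    refine Finset.sum_congr rfl (fun j _ => ?_)
    rw [mul_add, AddChar.map_add_eq_mul]
    ring
  exact sub_eq_zero.mp (coeff_eq_zero hψ hp0 _ key j)

/-- **unit sum**: degree-one homogeneous functions with a unit combination at `x`. -/
theorem exists_unit_sum (hψ : ψ.IsPrimitive) (hp0 : (p : K) ≠ 0)
    (hdec : ∀ f ∈ T, Dec T f)
    (hcoef : ∀ f ∈ T, ∃ c : ZMod p → S, ∀ k, f (ι k) = ∑ j, algebraMap S K (c j) * ψ (j * k))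
    {g : M → K} (hg : g ∈ T) (hgχ : ∀ k, g (ι k) = ψ k) (x : M) :
    ∃ (I : Type) (_ : Fintype I) (F G : I → (M → K)), (∀ i, F i ∈ T) ∧ (∀ i, G i ∈ T) ∧
      (∀ i y k, F i (y + ι k) = ψ k * F i y) ∧ ∑ i, F i x * G i (-x) = 1 := by
  classical
  obtain ⟨I, _, a, b, ha, hb, hab⟩ := hdec g hg
  choose Fa hFa hexp hhom using fun i => exists_graded T ι ψ hψ hp0 hdec hcoef (ha i)
  refine ⟨I, inferInstance, fun i => Fa i 1, b, fun i => hFa i 1, hb, ?_, ?_⟩
  · intro i y k
    have := hhom i 1 y k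
    rwa [one_mul] at this
  · have key : ∀ k, ∑ j, ((∑ i, Fa i j x * b i (-x)) - (if j = 1 then 1 else 0)) * ψ (j * k)
        = 0 := by
      intro k
      simp only [sub_mul, Finset.sum_sub_distrib]
      rw [sub_eq_zero]
      have e1 : ∑ j, (∑ i, Fa i j x * b i (-x)) * ψ (j * k) = ψ k := by
        rw [← hgχ k]
        have : ι k = (x + ι k) + (-x) := by abel
        rw [this, hab]
        simp only [hexp, Finset.sum_mul]
        rw [Finset.sum_comm]
        refine Finset.sum_congr rfl (fun i _ => Finset.sum_congr rfl (fun j _ => ?_))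
        ring
      have e2 : ∑ j : ZMod p, (if j = 1 then (1 : K) else 0) * ψ (j * k) = ψ k := by
        rw [Finset.sum_eq_single 1]
        · rw [if_pos rfl, one_mul, one_mul]
        · intro j _ hj
          rw [if_neg hj, zero_mul]
        · intro h
          exact absurd (Finset.mem_univ _) h
      rw [e1, e2]
    have := coeff_eq_zero hψ hp0 _ key 1
    rw [if_pos rfl, sub_eq_zero] at this
    exact this

end Fermat.Agent.GF.Peu
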