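/-
GATE-F (S40), node GF-PEU part 2 (helper57): generic bookkeeping for algebras of functions
`M → K` generated by a set `𝓖` over a coefficient ring `S`: `Δ`-decomposability (arbitrary finite
index type) passes from the generators to `Algebra.adjoin S 𝓖`; conversion to `Fin n`-indexed
decompositions.  Mathlib only.
-/
import Mathlib

set_option autoImplicit false

namespace Fermat.Agent.GF.Peu

open Finset

variable {S K M : Type*} [CommRing S] [CommRing K] [Algebra S K] [AddCommGroup M]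

/-- `f (x + y)` is a finite sum of pure tensors from `T`. -/
def Dec (T : Subalgebra S (M → K)) (f : M → K) : Prop :=
  ∃ (ι : Type) (_ : Fintype ι) (a b : ι → (M → K)), (∀ i, a i ∈ T) ∧ (∀ i, b i ∈ T) ∧
    ∀ x y, f (x + y) = ∑ i, a i x * b i y

theorem dec_algebraMap (T : Subalgebra S (M → K)) (r : S) : Dec T (algebraMap S (M → K) r) :=
  ⟨Unit, inferInstance, fun _ => algebraMap S (M → K) r, fun _ => 1,
    fun _ => T.algebraMap_mem r, fun _ => T.one_mem, fun x y => by
      simp [Pi.algebraMap_apply]⟩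

theorem Dec.add {T : Subalgebra S (M → K)} {f g : M → K} (hf : Dec T f) (hg : Dec T g) :
    Dec T (f + g) := by
  obtain ⟨ι, _, a, b, ha, hb, hab⟩ := hf
  obtain ⟨ι', _, a', b', ha', hb', hab'⟩ := hg
  refine ⟨ι ⊕ ι', inferInstance, Sum.elim a a', Sum.elim b b', ?_, ?_, fun x y => ?_⟩
  · rintro (i | i)
    · exact ha i
    · exact ha' i
  · rintro (i | i)
    · exact hb i
    · exact hb' i
  · rw [Pi.add_apply, hab, hab', Fintype.sum_sum_type]
    rfl

theorem Dec.mul {T : Subalgebra S (M → K)} {f g : M → K} (hf : Dec T f) (hg : Dec T g) :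
    Dec T (f * g) := by
  obtain ⟨ι, _, a, b, ha, hb, hab⟩ := hf
  obtain ⟨ι', _, a', b', ha', hb', hab'⟩ := hg
  refine ⟨ι × ι', inferInstance, fun ij => a ij.1 * a' ij.2, fun ij => b ij.1 * b' ij.2,
    fun ij => T.mul_mem (ha _) (ha' _), fun ij => T.mul_mem (hb _) (hb' _), fun x y => ?_⟩
  rw [Pi.mul_apply, hab, hab', Finset.sum_mul_sum, Fintype.sum_prod_type]
  refine Finset.sum_congr rfl (fun i _ => Finset.sum_congr rfl (fun j _ => ?_))
  simp only [Pi.mul_apply]
  ring

/-- `Δ`-decomposability passes from generators to the generated algebra. -/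
theorem dec_adjoin (𝓖 : Set (M → K)) (h : ∀ f ∈ 𝓖, Dec (Algebra.adjoin S 𝓖) f) :
    ∀ f ∈ Algebra.adjoin S 𝓖, Dec (Algebra.adjoin S 𝓖) f := by
  intro f hf
  induction hf using Algebra.adjoin_induction with
  | mem x hx => exact h x hx
  | algebraMap r => exact dec_algebraMap _ r
  | add x y _ _ hx hy => exact hx.add hy
  | mul x y _ _ hx hy => exact hx.mul hy

/-- `Fin n`-indexed form. -/
theorem Dec.fin {T : Subalgebra S (M → K)} {f : M → K} (hf : Dec T f) :
    ∃ (n : ℕ) (a b : Fin n → (M → K)), (∀ i, a i ∈ T) ∧ (∀ i, b i ∈ T) ∧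
      ∀ x y, f (x + y) = ∑ i, a i x * b i y := by
  obtain ⟨ι, _, a, b, ha, hb, hab⟩ := hf
  let e := Fintype.equivFin ι
  refine ⟨Fintype.card ι, fun i => a (e.symm i), fun i => b (e.symm i), fun i => ha _,
    fun i => hb _, fun x y => ?_⟩
  rw [hab]
  exact (Equiv.sum_comp e.symm (fun i => a i x * b i y)).symm

theorem Dec.of_fin {T : Subalgebra S (M → K)} {f : M → K} {n : ℕ} {a b : Fin n → (M → K)}
    (ha : ∀ i, a i ∈ T) (hb : ∀ i, b i ∈ T) (hab : ∀ x y, f (x + y) = ∑ i, a i x * b i y) :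
    Dec T f :=
  ⟨Fin n, inferInstance, a, b, ha, hb, hab⟩

theorem Dec.mono {T T' : Subalgebra S (M → K)} (hTT' : T ≤ T') {f : M → K} (hf : Dec T f) :
    Dec T' f := by
  obtain ⟨ι, i, a, b, ha, hb, hab⟩ := hf
  exact ⟨ι, i, a, b, fun j => hTT' (ha j), fun j => hTT' (hb j), hab⟩

end Fermat.Agent.GF.Peu
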