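/-
GATE-F (S40), node GF-PEU part 3 (helper57): the TAME EXTENSION `H' = O'·H` of a `Δ`-stable
`ℤ_(p)`-order `H ⊆ Map(M, ℚ̄)` (`IsDeltaOrder p act H`, GH/Closure vocabulary), `O' = A ∩ K₀(ζ_p)`:
values in `A`, equivariance under the tame inertia `I' = I_A ∩ Stab ζ`, `Δ`-decomposability inside
`H'`, and the KERNEL-OF-REDUCTION lemma: a point `w0` on which `I_A` acts through the mod-`p`
cyclotomic character (`p` odd) satisfies `f w0 ≡ f 0 mod 𝔪_A` for every `f ∈ H'`.
-/
import Mathlib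
import Fermat.Agent.GF.Peu.Tame
import Fermat.Agent.GF.Peu.Adjoin
import Fermat.Agent.GH.Closure.Main
import Fermat.Agent.GH.N1Inst.WRing

set_option autoImplicit false
set_option linter.unusedSectionVars false

open scoped Pointwise NumberField
open Polynomial IntermediateField
open Fermat.Agent.Common_helper32 Fermat.Agent.S13.Global
open Fermat.Agent.GL.Local.InertiaField Fermat.Agent.GH.Closure

namespace Fermat.Agent.GF.Peu

variable {p : ℕ} [hpF : Fact p.Prime] (A : ValuationSubring Qb) (ζ : Qb)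
variable {M : Type*} [AddCommGroup M] (act : GQ → M →+ M) (H : Subalgebra (Rl p) (M → Qb))

/-- the tame ring as a type. -/
abbrev OT : Type := ↥(tameSub A ζ)

/-- the tame extension `H' = O'[H]`. -/
noncomputable def ordT : Subalgebra (OT A ζ) (M → Qb) := Algebra.adjoin (OT A ζ) (H : Set (M → Qb))

variable {A ζ act H}

theorem subset_ordT {f : M → Qb} (hf : f ∈ H) : f ∈ ordT A ζ H := Algebra.subset_adjoin hf

/-- integral over `ℤ_(p)` ⟹ in `A`. -/
theorem mem_of_isIntegral_Rl (hA : (p : Qb) ∈ A.nonunits) {z : Qb} (hz : IsIntegral (Rl p) z) :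
    z ∈ A := by
  have hmem : ∀ r : Rl p, algebraMap (Rl p) Qb r ∈ A := by
    intro r
    have := (Fermat.Agent.GH.N1Inst.wRing_W1 A hpF.out hA (r : ℚ)).2 r.2
    exact this.1
  let φ : Rl p →+* A := (algebraMap (Rl p) Qb).codRestrict A.toSubring hmem
  obtain ⟨g, hgm, hg⟩ := hz
  have hint : IsIntegral A z := by
    refine ⟨g.map φ, hgm.map φ, ?_⟩
    rw [Polynomial.eval₂_map]
    have : (algebraMap A Qb).comp φ = algebraMap (Rl p) Qb := by
      ext y; rfl
    rw [this]
    exact hg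
  obtain ⟨y, hy⟩ := (IsIntegrallyClosed.isIntegral_iff (R := A) (K := Qb)).mp hint
  rw [← hy]
  exact y.2

variable (hH : IsDeltaOrder p act H) (hA : (p : Qb) ∈ A.nonunits)
include hH hA

/-- values of `H'` lie in `A`. -/
theorem ordT_val : ∀ f ∈ ordT A ζ H, ∀ y, f y ∈ A := by
  intro f hf
  induction hf using Algebra.adjoin_induction with
  | mem x hx => exact fun y => mem_of_isIntegral_Rl hA (hH.hint x hx y)
  | algebraMap r => exact fun y => r.2.1
  | add x y _ _ hx hy => exact fun z => A.add_mem _ _ (hx z) (hy z)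
  | mul x y _ _ hx hy => exact fun z => A.mul_mem _ _ (hx z) (hy z)

omit hA in
/-- tame equivariance of `H'`. -/
theorem ordT_equiv : ∀ f ∈ ordT A ζ H, ∀ ρ : GQ, IsTameFix A ζ ρ → ∀ y, f (act ρ y) = ρ (f y) := by
  intro f hf
  induction hf using Algebra.adjoin_induction with
  | mem x hx => exact fun ρ _ y => hH.heq x hx ρ y
  | algebraMap r => exact fun ρ hρ y => (r.2.2 ρ hρ).symm
  | add x y _ _ hx hy =>
    intro ρ hρ z
    rw [Pi.add_apply, Pi.add_apply, hx ρ hρ z, hy ρ hρ z, map_add]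
  | mul x y _ _ hx hy =>
    intro ρ hρ z
    rw [Pi.mul_apply, Pi.mul_apply, hx ρ hρ z, hy ρ hρ z, map_mul]

omit hA in
/-- `Δ`-decomposability inside `H'`. -/
theorem ordT_dec : ∀ f ∈ ordT A ζ H, Dec (ordT A ζ H) f := by
  apply dec_adjoin
  intro f hf
  obtain ⟨n, a, b, hab⟩ := hH.hΔ f hf
  exact Dec.of_fin (a := fun i => (a i : M → Qb)) (b := fun i => (b i : M → Qb))
    (fun i => subset_ordT (a i).2) (fun i => subset_ordT (b i).2) hab

/-- congruence modulo `𝔪_A` passes from `H` to `H'`. -/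
theorem ordT_cong {y y' : M} (h : ∀ f ∈ H, f y - f y' ∈ A.nonunits) :
    ∀ f ∈ ordT A ζ H, f y - f y' ∈ A.nonunits := by
  intro f hf
  induction hf using Algebra.adjoin_induction with
  | mem x hx => exact h x hx
  | algebraMap r =>
    rw [Pi.algebraMap_apply, Pi.algebraMap_apply, sub_self]
    exact A.nonunits.zero_mem' |> fun _ => by
      rw [A.mem_nonunits_iff, map_zero]; exact zero_lt_one
  | add a b ha hb iha ihb =>
    have : (a + b) y - (a + b) y' = (a y - a y') + (b y - b y') := by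
      simp only [Pi.add_apply]; ring
    rw [this]
    exact add_mem iha ihb
  | mul a b ha hb iha ihb =>
    have : (a * b) y - (a * b) y' = (a y - a y') * b y + (b y - b y') * a y' := by
      simp only [Pi.mul_apply]; ring
    rw [this]
    exact add_mem (Fermat.Agent.S05.mul_mem_nonunits_of_mem iha (ordT_val hH hA b hb y))
      (Fermat.Agent.S05.mul_mem_nonunits_of_mem ihb (ordT_val hH hA a ha y'))

/-- congruence is translation invariant. -/
theorem ordT_cong_add {y y' : M} (h : ∀ f ∈ ordT A ζ H, f y - f y' ∈ A.nonunits) (z : M) :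
    ∀ f ∈ ordT A ζ H, f (y + z) - f (y' + z) ∈ A.nonunits := by
  intro f hf
  obtain ⟨ι, _, a, b, ha, hb, hab⟩ := ordT_dec (ζ := ζ) (A := A) hH f hf
  rw [hab, hab, ← Finset.sum_sub_distrib]
  refine sum_mem (fun i _ => ?_)
  rw [← sub_mul]
  exact Fermat.Agent.S05.mul_mem_nonunits_of_mem (h _ (ha i)) (ordT_val hH hA _ (hb i) z)

/-- **kernel of reduction**: `I_A` acts on `w0` through the cyclotomic character, `p` odd ⟹
`f w0 ≡ f 0 mod 𝔪_A` for all `f ∈ H'`. -/
theorem ordT_sub_mem_nonunits (hζ : IsPrimitiveRoot ζ p) (hp2 : p ≠ 2) {w0 : M}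
    (hpw : p • w0 = 0)
    (hω : ∀ σ ∈ A.inertiaSubgroupIn ℚ, ∀ k : ℕ, σ ζ = ζ ^ k → act σ w0 = k • w0) :
    ∀ f ∈ ordT A ζ H, f w0 - f 0 ∈ A.nonunits := by
  have hp := hpF.out
  have h2 : ¬ p ∣ 2 := by
    intro h
    have := (Nat.prime_dvd_prime_iff_eq hp Nat.prime_two).mp h
    exact hp2 this
  obtain ⟨σ, hσI, hσ⟩ := exists_mem_inertia_apply_zeta A hp hA hζ h2
  have hact : act σ w0 = 2 • w0 := hω σ hσI 2 hσ
  -- `2 w0 ≡ w0` on `H`
  have h1 : ∀ f ∈ H, f (2 • w0) - f w0 ∈ A.nonunits := by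
    intro f hf
    rw [← hact, hH.heq f hf σ w0]
    exact Fermat.Agent.S05.apply_sub_mem_nonunits_of_mem_inertiaSubgroupIn hσI
      (mem_of_isIntegral_Rl hA (hH.hint f hf w0))
  have h3 := ordT_cong_add hH hA (ordT_cong (ζ := ζ) hH hA h1) ((p - 1) • w0)
  have hp1 : 1 ≤ p := hp.one_lt.le
  have e1 : 2 • w0 + (p - 1) • w0 = w0 := by
    rw [← add_nsmul]
    have : 2 + (p - 1) = p + 1 := by omega
    rw [this, add_nsmul, hpw, zero_add, one_nsmul]
  have e2 : w0 + (p - 1) • w0 = 0 := by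
    nth_rewrite 1 [← one_nsmul w0]
    rw [← add_nsmul]
    have : 1 + (p - 1) = p := by omega
    rw [this, hpw]
  intro f hf
  have := h3 f hf
  rwa [e1, e2] at this

end Fermat.Agent.GF.Peu
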