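/-
GATE-F (S40), node GF-PEU part 5 (helper57): **PEU RAMIFIÉE FROM A FINITE `Δ`-STABLE ORDER**.
`M` a `G_ℚ`-module with a finite `Δ`-stable `ℤ_(p)`-order (`HasFinOrder p act`, the GH/Closure
vocabulary = output of the GH core for `J[p]`, `E[p]`), `A | p` a valuation subring of `ℚ̄`, `p` odd,
`w0 ≠ 0` a `p`-torsion point on which the inertia `I_A` acts through the mod-`p` cyclotomic
character.  Then for EVERY `x : M` there is a UNIT `α ∈ A^×` (`α ≠ 0`, `α, α⁻¹ ∈ A`) with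
`ρ α = ζ ^ κ * α` for every tame `ρ ∈ I' = I_A ∩ Stab ζ` with `ρ x = x + κ w0`.
(So the Kummer extension `K'(x)/K'` cut out by `x`, `K' = K₀(ζ_p)`, is generated by the `p`-th root
`α` of the UNIT `α^p ∈ K'`: peu ramifiée.)  No formal group, no completion: the restriction of the
order to `⟨w0⟩` over the tame ring `O' = A ∩ K'` is a finite local `Δ`-stable order, hence the
`μ_p`-order by GF/Ord (ORD1 + ORD2), and the order on `M` is `ℤ/p`-graded (GF/Peu/Graded).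
-/
import Mathlib
import Fermat.Agent.GF.Peu.OrdT
import Fermat.Agent.GF.Peu.Graded
import Fermat.Agent.GF.Ord.Chi2

set_option autoImplicit false
set_option linter.unusedSectionVars false

open scoped Pointwise NumberField
open Polynomial IntermediateField
open Fermat.Agent.Common_helper32 Fermat.Agent.S13.Global
open Fermat.Agent.GL.Local.InertiaField Fermat.Agent.GH.Closure Fermat.Agent.GF.Ord

namespace Fermat.Agent.GF.Peu

variable {p : ℕ} [hpF : Fact p.Prime] (A : ValuationSubring Qb) (ζ : Qb)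
variable {M : Type*} [AddCommGroup M] (act : GQ → M →+ M) (H : Subalgebra (Rl p) (M → Qb))
variable (ι : ZMod p →+ M)

/-- the restriction of `H'` to the line `ι`, as an algebra of `O'`-valued functions on `ℤ/p`. -/
def resB : Subalgebra (OT A ζ) (ZMod p → OT A ζ) where
  carrier := {g | ∃ f ∈ ordT A ζ H, ∀ k, ((g k : OT A ζ) : Qb) = f (ι k)}
  mul_mem' := by
    rintro g g' ⟨f, hf, h⟩ ⟨f', hf', h'⟩
    exact ⟨f * f', (ordT A ζ H).mul_mem hf hf', fun k => by
      rw [Pi.mul_apply, Pi.mul_apply, Subring.coe_mul, h, h']⟩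
  add_mem' := by
    rintro g g' ⟨f, hf, h⟩ ⟨f', hf', h'⟩
    exact ⟨f + f', (ordT A ζ H).add_mem hf hf', fun k => by
      rw [Pi.add_apply, Pi.add_apply, Subring.coe_add, h, h']⟩
  algebraMap_mem' r :=
    ⟨algebraMap (OT A ζ) (M → Qb) r, (ordT A ζ H).algebraMap_mem r, fun k => rfl⟩

variable {A ζ act H ι}

/-- rationals of `ℤ_(p)` lie in the tame ring. -/
theorem algebraMap_Rl_mem_tameSub (hA : (p : Qb) ∈ A.nonunits) (r : Rl p) :
    algebraMap (Rl p) Qb r ∈ tameSub A ζ := by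
  refine ⟨((Fermat.Agent.GH.N1Inst.wRing_W1 A hpF.out hA (r : ℚ)).2 r.2).1, fun ρ _ => ?_⟩
  have : algebraMap (Rl p) Qb r = algebraMap ℚ Qb (r : ℚ) := rfl
  rw [this, AlgEquiv.commutes]

/-- `H'` is spanned over `O'` by any `ℤ_(p)`-spanning set of `H`. -/
theorem ordT_fg (hA : (p : Qb) ∈ A.nonunits) (hfin : (Subalgebra.toSubmodule H).FG) :
    (Subalgebra.toSubmodule (ordT A ζ H)).FG := by
  obtain ⟨S, hS⟩ := hfin
  refine ⟨S, ?_⟩
  have h1 : Subalgebra.toSubmodule (ordT A ζ H)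
      = Submodule.span (OT A ζ) ((H : Set (M → Qb))) := by
    have hcl : Submonoid.closure (H : Set (M → Qb)) = H.toSubmonoid :=
      Submonoid.closure_eq H.toSubmonoid
    rw [ordT, Algebra.adjoin_eq_span, hcl]
    rfl
  rw [h1]
  apply le_antisymm
  · apply Submodule.span_mono
    intro f hf
    have : f ∈ Submodule.span (Rl p) (S : Set (M → Qb)) := Submodule.subset_span hf
    rw [hS] at this
    exact this
  · rw [Submodule.span_le]
    have key : ∀ f ∈ Submodule.span (Rl p) (S : Set (M → Qb)),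
        f ∈ Submodule.span (OT A ζ) (S : Set (M → Qb)) := by
      intro f hf'
      induction hf' using Submodule.span_induction with
      | mem x hx => exact Submodule.subset_span hx
      | zero => exact Submodule.zero_mem _
      | add x y _ _ hx hy => exact Submodule.add_mem _ hx hy
      | smul r x _ hx =>
        have : r • x
            = (⟨algebraMap (Rl p) Qb r, algebraMap_Rl_mem_tameSub hA r⟩ : OT A ζ) • x := by
          funext m
          rw [Pi.smul_apply, Pi.smul_apply, Algebra.smul_def]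
          rfl
        rw [this]
        exact Submodule.smul_mem _ _ hx
    intro f hf
    apply key
    rw [hS]
    exact hf

section line

variable (hH : IsDeltaOrder p act H) (hA : (p : Qb) ∈ A.nonunits)
  (hι : ∀ ρ : GQ, IsTameFix A ζ ρ → ∀ k, act ρ (ι k) = ι k)

/-- the restriction of `f ∈ H'` to the line, as an `O'`-valued function. -/
def resF (f : M → Qb) (hf : f ∈ ordT A ζ H) : ZMod p → OT A ζ := fun k =>
  ⟨f (ι k), ordT_val hH hA f hf (ι k), fun ρ hρ => by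
    rw [← ordT_equiv hH f hf ρ hρ, hι ρ hρ]⟩

theorem resF_mem (f : M → Qb) (hf : f ∈ ordT A ζ H) :
    resF hH hA hι f hf ∈ resB A ζ H ι := ⟨f, hf, fun _ => rfl⟩

theorem resF_coe (f : M → Qb) (hf : f ∈ ordT A ζ H) (k : ZMod p) :
    ((resF hH hA hι f hf k : OT A ζ) : Qb) = f (ι k) := rfl

include hH hA hι

theorem resB_deltaStable : DeltaStable (resB A ζ H ι) := by
  rintro g ⟨f, hf, hg⟩
  obtain ⟨n, a, b, ha, hb, hab⟩ := (ordT_dec hH f hf).fin
  refine ⟨n, fun i => resF hH hA hι (a i) (ha i), fun i => resF hH hA hι (b i) (hb i),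
    fun i => resF_mem hH hA hι _ _, fun i => resF_mem hH hA hι _ _, fun x y => ?_⟩
  apply Subtype.ext
  rw [hg, map_add, hab, AddSubmonoidClass.coe_finsetSum]
  rfl

theorem resB_loc (hζ : IsPrimitiveRoot ζ p) (ζ' : OT A ζ) (hζ' : (ζ' : Qb) = ζ)
    (h1 : ∀ f ∈ ordT A ζ H, f (ι 1) - f 0 ∈ A.nonunits) :
    ∀ g ∈ resB A ζ H ι, (1 - ζ') ∣ g 1 - g 0 := by
  rintro g ⟨f, hf, hg⟩
  have hx : ((g 1 - g 0 : OT A ζ) : Qb) ∈ tameSub A ζ := (g 1 - g 0).2
  have hxm : ((g 1 - g 0 : OT A ζ) : Qb) ∈ A.nonunits := by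
    rw [AddSubgroupClass.coe_sub, hg, hg, map_zero]
    exact h1 f hf
  obtain ⟨c, hc, hxc⟩ := exists_eq_one_sub_zeta_mul hpF.out hA hζ hx hxm
  exact ⟨⟨c, hc⟩, Subtype.ext (by
    rw [hxc, Subring.coe_mul, AddSubgroupClass.coe_sub, OneMemClass.coe_one, hζ'])⟩

theorem resB_fg (hfin : (Subalgebra.toSubmodule H).FG) :
    (Subalgebra.toSubmodule (resB A ζ H ι)).FG := by
  have hH' := ordT_fg (ζ := ζ) hA hfin
  let resQ : (M → Qb) →ₗ[OT A ζ] (ZMod p → Qb) := LinearMap.funLeft (OT A ζ) Qb (ι : ZMod p → M)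
  let incl : (ZMod p → OT A ζ) →ₗ[OT A ζ] (ZMod p → Qb) :=
    (Algebra.linearMap (OT A ζ) Qb).compLeft (ZMod p)
  have hinj : Function.Injective incl := by
    intro g g' hgg'
    funext k
    exact Subtype.ext (congrFun hgg' k)
  apply Submodule.fg_of_fg_map_injective incl hinj
  have hmap : Submodule.map incl (Subalgebra.toSubmodule (resB A ζ H ι))
      = Submodule.map resQ (Subalgebra.toSubmodule (ordT A ζ H)) := by
    ext z
    constructor
    · rintro ⟨g, ⟨f, hf, hg⟩, rfl⟩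
      exact ⟨f, hf, funext (fun k => (hg k).symm)⟩
    · rintro ⟨f, hf, rfl⟩
      exact ⟨resF hH hA hι f hf, resF_mem hH hA hι f hf, rfl⟩
  rw [hmap]
  exact hH'.map _

end line

/-- **MAIN (line form).** -/
theorem exists_unit_of_line (hH : IsDeltaOrder p act H) (hfin : (Subalgebra.toSubmodule H).FG)
    (hA : (p : Qb) ∈ A.nonunits) (hζ : IsPrimitiveRoot ζ p)
    (hι : ∀ ρ : GQ, IsTameFix A ζ ρ → ∀ k, act ρ (ι k) = ι k)
    (h1 : ∀ f ∈ ordT A ζ H, f (ι 1) - f 0 ∈ A.nonunits) (h10 : ι 1 ≠ 0) (x : M) :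
    ∃ α : Qb, α ≠ 0 ∧ α ∈ A ∧ α⁻¹ ∈ A ∧ ∀ ρ : GQ, IsTameFix A ζ ρ → ∀ k : ZMod p,
      act ρ x = x + ι k → ρ α = ζ ^ k.val * α := by
  classical
  have hp := hpF.out
  -- the characters
  let ζ' : OT A ζ := ⟨ζ, zeta_mem_tameSub hp hA hζ⟩
  have hζ' : IsPrimitiveRoot ζ' p :=
    IsPrimitiveRoot.of_map_of_injective (f := (tameSub A ζ).subtype) hζ Subtype.coe_injective
  let ψ : AddChar (ZMod p) (OT A ζ) := AddChar.zmodChar p hζ'.pow_eq_one
  have hψ : ψ.IsPrimitive := AddChar.zmodChar_primitive_of_primitive_root p hζ'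
  let ψQ : AddChar (ZMod p) Qb := AddChar.zmodChar p hζ.pow_eq_one
  have hψQ : ψQ.IsPrimitive := AddChar.zmodChar_primitive_of_primitive_root p hζ
  have hψc : ∀ k, ((ψ k : OT A ζ) : Qb) = ψQ k := by
    intro k
    rw [AddChar.zmodChar_apply, AddChar.zmodChar_apply, SubmonoidClass.coe_pow]
  have hψ1 : ψ 1 = ζ' := by
    rw [AddChar.zmodChar_apply, ZMod.val_one, pow_one]
  have hp0Q : (p : Qb) ≠ 0 := Nat.cast_ne_zero.mpr hp.ne_zero
  have hp0 : (p : OT A ζ) ≠ 0 := by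
    intro h
    apply hp0Q
    have := congrArg (Subtype.val) h
    simpa using this
  -- the restricted algebra
  have hΔ := resB_deltaStable hH hA hι
  have hloc : ∀ g ∈ resB A ζ H ι, (1 - ψ 1) ∣ g 1 - g 0 := by
    rw [hψ1]
    exact resB_loc hH hA hι hζ ζ' rfl h1
  have hfg := resB_fg hH hA hι hfin
  -- (ORD1)
  have hcoef : ∀ f ∈ ordT A ζ H, ∃ c : ZMod p → OT A ζ, ∀ k,
      f (ι k) = ∑ j, algebraMap (OT A ζ) Qb (c j) * ψQ (j * k) := by
    intro f hf
    obtain ⟨c, hc⟩ := exists_coeff hψ hΔ hp0 hloc _ (resF_mem hH hA hι f hf)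
    refine ⟨c, fun k => ?_⟩
    rw [← resF_coe hH hA hι f hf k, hc k, AddSubmonoidClass.coe_finsetSum]
    refine Finset.sum_congr rfl (fun j _ => ?_)
    rw [Subring.coe_mul, hψc]
    rfl
  -- (ORD2)
  obtain ⟨f0, hf0, hne⟩ := hH.hsep (ι 1) 0 h10
  have hχ : (fun k : ZMod p => ψ k) ∈ resB A ζ H ι := by
    refine chi_mem_of_fg hψ hΔ hp0 hloc (fun j => coefIdeal_fg_of_fg hψ hΔ hp0 hloc hfg j)
      (resF_mem hH hA hι f0 (subset_ordT hf0)) ?_
    intro h
    apply hne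
    have := congrArg Subtype.val h
    rw [resF_coe, resF_coe, map_zero] at this
    exact this
  obtain ⟨g, hg, hgχ⟩ := hχ
  have hgχ' : ∀ k, g (ι k) = ψQ k := fun k => by rw [← hgχ k, hψc]
  -- the unit sum
  obtain ⟨I, _, F, G, hF, hG, hhom, hsum⟩ :=
    exists_unit_sum (ordT A ζ H) ι ψQ hψQ hp0Q (ordT_dec hH) hcoef hg hgχ' x
  have hex : ∃ i, F i x ∉ A.nonunits := by
    by_contra hcon
    push Not at hcon
    have : (1 : Qb) ∈ A.nonunits := by
      rw [← hsum]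
      refine sum_mem (fun i _ => ?_)
      exact Fermat.Agent.S05.mul_mem_nonunits_of_mem (hcon i) (ordT_val hH hA _ (hG i) (-x))
    rw [A.mem_nonunits_iff, map_one] at this
    exact lt_irrefl _ this
  obtain ⟨i, hi⟩ := hex
  have hαA : F i x ∈ A := ordT_val hH hA _ (hF i) x
  refine ⟨F i x, ?_, hαA, ?_, ?_⟩
  · intro h0
    apply hi
    rw [h0, A.mem_nonunits_iff, map_zero]
    exact zero_lt_one
  · rw [A.mem_nonunits_iff, not_lt] at hi
    have hle : A.valuation (F i x) ≤ 1 := (A.valuation_le_one_iff _).mpr hαA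
    have heq : A.valuation (F i x) = 1 := le_antisymm hle hi
    rw [← A.valuation_le_one_iff, map_inv₀, heq, inv_one]
  · intro ρ hρ k hk
    rw [← ordT_equiv hH _ (hF i) ρ hρ x, hk, hhom i x k, AddChar.zmodChar_apply]

/-- the line `k ↦ k • w0`. -/
def lineHom (w0 : M) (hpw : p • w0 = 0) : ZMod p →+ M :=
  ZMod.lift p ⟨zmultiplesHom M w0, by
    rw [zmultiplesHom_apply, natCast_zsmul]; exact hpw⟩

theorem lineHom_natCast (w0 : M) (hpw : p • w0 = 0) (k : ℕ) :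
    lineHom w0 hpw (k : ZMod p) = k • w0 := by
  have := ZMod.lift_coe p (⟨zmultiplesHom M w0, by
    rw [zmultiplesHom_apply, natCast_zsmul]; exact hpw⟩ : {f : ℤ →+ M // f p = 0}) (k : ℤ)
  rw [Int.cast_natCast] at this
  rw [lineHom, this]
  show zmultiplesHom M w0 (k : ℤ) = k • w0
  rw [zmultiplesHom_apply, natCast_zsmul]

theorem lineHom_apply (w0 : M) (hpw : p • w0 = 0) (k : ZMod p) :
    lineHom w0 hpw k = k.val • w0 := by
  conv_lhs => rw [← ZMod.natCast_zmod_val k]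
  exact lineHom_natCast w0 hpw k.val

/-- **MAIN**: peu ramifiée from a finite `Δ`-stable order. -/
theorem exists_unit_of_order (hp2 : p ≠ 2) (hH : IsDeltaOrder p act H)
    (hfin : (Subalgebra.toSubmodule H).FG)
    (hA : (p : Qb) ∈ A.nonunits) (hζ : IsPrimitiveRoot ζ p) {w0 : M} (hw0 : w0 ≠ 0)
    (hpw : p • w0 = 0)
    (hω : ∀ σ ∈ A.inertiaSubgroupIn ℚ, ∀ k : ℕ, σ ζ = ζ ^ k → act σ w0 = k • w0) (x : M) :
    ∃ α : Qb, α ≠ 0 ∧ α ∈ A ∧ α⁻¹ ∈ A ∧ ∀ ρ : GQ, IsTameFix A ζ ρ → ∀ κ : ℕ,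
      act ρ x = x + κ • w0 → ρ α = ζ ^ κ * α := by
  have hι1 : lineHom w0 hpw 1 = w0 := by
    have := lineHom_natCast w0 hpw 1
    rwa [Nat.cast_one, one_nsmul] at this
  have hι : ∀ ρ : GQ, IsTameFix A ζ ρ → ∀ k, act ρ (lineHom w0 hpw k) = lineHom w0 hpw k := by
    intro ρ hρ k
    have h1 : act ρ w0 = w0 := by
      have := hω ρ hρ.1 1 (by rw [pow_one]; exact hρ.2)
      rwa [one_nsmul] at this
    rw [lineHom_apply, map_nsmul, h1]
  have h1 : ∀ f ∈ ordT A ζ H, f (lineHom w0 hpw 1) - f 0 ∈ A.nonunits := by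
    rw [hι1]
    exact ordT_sub_mem_nonunits hH hA hζ hp2 hpw hω
  obtain ⟨α, hα0, hα, hα', hρα⟩ :=
    exists_unit_of_line hH hfin hA hζ hι h1 (by rw [hι1]; exact hw0) x
  refine ⟨α, hα0, hα, hα', fun ρ hρ κ hκ => ?_⟩
  have := hρα ρ hρ (κ : ZMod p) (by rw [lineHom_natCast]; exact hκ)
  rw [this, ZMod.val_natCast, ← pow_eq_pow_mod κ hζ.pow_eq_one]

/-- **MAIN**, `HasFinOrder` form. -/
theorem exists_unit_of_hasFinOrder (hp2 : p ≠ 2) (h : HasFinOrder p act)
    (hA : (p : Qb) ∈ A.nonunits) (hζ : IsPrimitiveRoot ζ p) {w0 : M} (hw0 : w0 ≠ 0)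
    (hpw : p • w0 = 0)
    (hω : ∀ σ ∈ A.inertiaSubgroupIn ℚ, ∀ k : ℕ, σ ζ = ζ ^ k → act σ w0 = k • w0) (x : M) :
    ∃ α : Qb, α ≠ 0 ∧ α ∈ A ∧ α⁻¹ ∈ A ∧ ∀ ρ : GQ, IsTameFix A ζ ρ → ∀ κ : ℕ,
      act ρ x = x + κ • w0 → ρ α = ζ ^ κ * α := by
  obtain ⟨H, hH, hfin⟩ := h
  have hfg : (Subalgebra.toSubmodule H).FG := Module.Finite.iff_fg.mp hfin
  exact exists_unit_of_order hp2 hH hfg hA hζ hw0 hpw hω x

end Fermat.Agent.GF.Peu
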