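/-
GATE-F (S40), node GF-EPEU part 2 (helper57): **S2 of GRAPH v1 in FIELD FORM**, for an abstract
`G_ℚ`-module `(M, act)` with a finite `Δ`-stable `ℤ_(p)`-order (`HasFinOrder p act`).
`K' = ℚ̄^{I'}`, `I' = I_A ∩ Stab ζ_p`; `x : M` with `(ρ − 1) x ∈ ⟨w0⟩` for `ρ ∈ I'` (S1 SHAPE),
`L = K'(x)` (Galois form: fixed by every `ρ ∈ I'` with `ρ x = x`).  Then every
`c = γ^p ∈ K'^× ∩ L^{×p}` is `u · β^p` with `β ∈ K'^×`, `u ∈ A^×`; in particular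
`v(c) = v(β)^p ∈ p · v(K'^×)`: the extension is PEU RAMIFIÉE.
-/
import Mathlib
import Fermat.Agent.GF.Peu.Main
import Fermat.Agent.GF.Peu.Kummer

set_option autoImplicit false
set_option linter.unusedSectionVars false

open scoped Pointwise NumberField
open Fermat.Agent.Common_helper32 Fermat.Agent.S13.Global
open Fermat.Agent.GH.Closure

namespace Fermat.Agent.GF.Peu

variable {p : ℕ} [hpF : Fact p.Prime] {A : ValuationSubring Qb} {ζ : Qb}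
variable {M : Type*} [AddCommGroup M] {act : GQ → M →+ M}

/-- **S2, field form, from a Kummer unit.**  Route-independent: any `α ∈ A^×` with
`ρ α = ζ^κ α` whenever `ρ x = x + κ w0` (e.g. `α = η(t)` of the `η`-evaluation route). -/
theorem peu_field_of_unit (hζ : IsPrimitiveRoot ζ p) {w0 : M} (hpw : p • w0 = 0) (x : M)
    (hshape : ∀ ρ : GQ, IsTameFix A ζ ρ → ∃ κ : ℕ, act ρ x = x + κ • w0)
    {α : Qb} (hα0 : α ≠ 0) (hα : α ∈ A) (hα' : α⁻¹ ∈ A)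
    (hρα : ∀ ρ : GQ, IsTameFix A ζ ρ → ∀ κ : ℕ, act ρ x = x + κ • w0 → ρ α = ζ ^ κ * α)
    {γ : Qb} (hγ0 : γ ≠ 0) (hγp : ∀ ρ : GQ, IsTameFix A ζ ρ → ρ (γ ^ p) = γ ^ p)
    (hγL : ∀ ρ : GQ, IsTameFix A ζ ρ → act ρ x = x → ρ γ = γ) :
    ∃ β u : Qb, β ≠ 0 ∧ (∀ ρ : GQ, IsTameFix A ζ ρ → ρ β = β) ∧ u ∈ A ∧ u⁻¹ ∈ A ∧
      γ ^ p = u * β ^ p := by
  have hp := hpF.out
  have hαK : ∀ ρ : GQ, IsTameFix A ζ ρ → ∃ k : ℕ, ρ α = ζ ^ k * α := by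
    intro ρ hρ
    obtain ⟨κ, hκ⟩ := hshape ρ hρ
    exact ⟨κ, hρα ρ hρ κ hκ⟩
  have hγL' : ∀ ρ : GQ, IsTameFix A ζ ρ → ρ α = α → ρ γ = γ := by
    intro ρ hρ hfix
    obtain ⟨κ, hκ⟩ := hshape ρ hρ
    have h1 := hρα ρ hρ κ hκ
    rw [hfix] at h1
    have h2 : ζ ^ κ = 1 := by
      have : ζ ^ κ * α = 1 * α := by rw [← h1, one_mul]
      exact mul_right_cancel₀ hα0 this
    have h3 : p ∣ κ := (hζ.pow_eq_one_iff_dvd κ).mp h2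
    apply hγL ρ hρ
    obtain ⟨c, rfl⟩ := h3
    rw [hκ, mul_comm, mul_nsmul', hpw, smul_zero, add_zero]
  obtain ⟨m, hm⟩ := exists_div_pow_fixed hζ hα0 hγ0 hαK hγp hγL'
  have hαm : α ^ m ≠ 0 := pow_ne_zero _ hα0
  refine ⟨γ / α ^ m, (α ^ m) ^ p, div_ne_zero hγ0 hαm, hm, ?_, ?_, ?_⟩
  · exact pow_mem (pow_mem hα m) p
  · rw [← inv_pow, ← inv_pow]
    exact pow_mem (pow_mem hα' m) p
  · rw [div_pow]
    field_simp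

/-- valuation form. -/
theorem peu_valuation_of_unit (hζ : IsPrimitiveRoot ζ p) {w0 : M} (hpw : p • w0 = 0) (x : M)
    (hshape : ∀ ρ : GQ, IsTameFix A ζ ρ → ∃ κ : ℕ, act ρ x = x + κ • w0)
    {α : Qb} (hα0 : α ≠ 0) (hα : α ∈ A) (hα' : α⁻¹ ∈ A)
    (hρα : ∀ ρ : GQ, IsTameFix A ζ ρ → ∀ κ : ℕ, act ρ x = x + κ • w0 → ρ α = ζ ^ κ * α)
    {γ : Qb} (hγ0 : γ ≠ 0) (hγp : ∀ ρ : GQ, IsTameFix A ζ ρ → ρ (γ ^ p) = γ ^ p)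
    (hγL : ∀ ρ : GQ, IsTameFix A ζ ρ → act ρ x = x → ρ γ = γ) :
    ∃ β : Qb, β ≠ 0 ∧ (∀ ρ : GQ, IsTameFix A ζ ρ → ρ β = β) ∧
      A.valuation (γ ^ p) = A.valuation β ^ p := by
  obtain ⟨β, u, hβ0, hβ, hu, hu', hγβ⟩ :=
    peu_field_of_unit hζ hpw x hshape hα0 hα hα' hρα hγ0 hγp hγL
  refine ⟨β, hβ0, hβ, ?_⟩
  have hu0 : u ≠ 0 := by
    rintro rfl
    rw [zero_mul] at hγβ
    exact pow_ne_zero p hγ0 hγβ
  have h1 : A.valuation u ≤ 1 := (A.valuation_le_one_iff _).mpr hu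
  have h2 : A.valuation u⁻¹ ≤ 1 := (A.valuation_le_one_iff _).mpr hu'
  have hvu : A.valuation u = 1 := by
    apply le_antisymm h1
    rw [map_inv₀] at h2
    have hpos : 0 < A.valuation u := (A.valuation.pos_iff).mpr hu0
    exact (inv_le_one₀ hpos).mp h2
  rw [hγβ, map_mul, hvu, one_mul, map_pow]

/-- **S2, field form**: peu ramifiée from a finite `Δ`-stable order. -/
theorem peu_field (hp2 : p ≠ 2) (h : HasFinOrder p act) (hA : (p : Qb) ∈ A.nonunits)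
    (hζ : IsPrimitiveRoot ζ p) {w0 : M} (hw0 : w0 ≠ 0) (hpw : p • w0 = 0)
    (hω : ∀ σ ∈ A.inertiaSubgroupIn ℚ, ∀ k : ℕ, σ ζ = ζ ^ k → act σ w0 = k • w0) (x : M)
    (hshape : ∀ ρ : GQ, IsTameFix A ζ ρ → ∃ κ : ℕ, act ρ x = x + κ • w0)
    {γ : Qb} (hγ0 : γ ≠ 0) (hγp : ∀ ρ : GQ, IsTameFix A ζ ρ → ρ (γ ^ p) = γ ^ p)
    (hγL : ∀ ρ : GQ, IsTameFix A ζ ρ → act ρ x = x → ρ γ = γ) :
    ∃ β u : Qb, β ≠ 0 ∧ (∀ ρ : GQ, IsTameFix A ζ ρ → ρ β = β) ∧ u ∈ A ∧ u⁻¹ ∈ A ∧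
      γ ^ p = u * β ^ p := by
  obtain ⟨α, hα0, hα, hα', hρα⟩ := exists_unit_of_hasFinOrder hp2 h hA hζ hw0 hpw hω x
  exact peu_field_of_unit hζ hpw x hshape hα0 hα hα' hρα hγ0 hγp hγL

/-- **S2, valuation form**: `v(K'^× ∩ L^{×p}) ⊆ p · v(K'^×)`. -/
theorem peu_valuation (hp2 : p ≠ 2) (h : HasFinOrder p act) (hA : (p : Qb) ∈ A.nonunits)
    (hζ : IsPrimitiveRoot ζ p) {w0 : M} (hw0 : w0 ≠ 0) (hpw : p • w0 = 0)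
    (hω : ∀ σ ∈ A.inertiaSubgroupIn ℚ, ∀ k : ℕ, σ ζ = ζ ^ k → act σ w0 = k • w0) (x : M)
    (hshape : ∀ ρ : GQ, IsTameFix A ζ ρ → ∃ κ : ℕ, act ρ x = x + κ • w0)
    {γ : Qb} (hγ0 : γ ≠ 0) (hγp : ∀ ρ : GQ, IsTameFix A ζ ρ → ρ (γ ^ p) = γ ^ p)
    (hγL : ∀ ρ : GQ, IsTameFix A ζ ρ → act ρ x = x → ρ γ = γ) :
    ∃ β : Qb, β ≠ 0 ∧ (∀ ρ : GQ, IsTameFix A ζ ρ → ρ β = β) ∧
      A.valuation (γ ^ p) = A.valuation β ^ p := by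
  obtain ⟨α, hα0, hα, hα', hρα⟩ := exists_unit_of_hasFinOrder hp2 h hA hζ hw0 hpw hω x
  exact peu_valuation_of_unit hζ hpw x hshape hα0 hα hα' hρα hγ0 hγp hγL

end Fermat.Agent.GF.Peu
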